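import Fermat.Agent.LT.A2.H151.Chi

/-!
# Row LT, tower A2, leaf A2.03.1.6 `WX467.RightInvC` -- part 6: the infinite places
(helper151, OFF-MAIN)

* `locInf w M`: the element of `GL₂(𝔸_K)` with the component `M` at the infinite place `w`,
  trivial elsewhere;
* roots in the completions at the infinite places (`exists_root_of_isComplex`,
  `exists_preimage_real`);
* scalar matrices; the invariance of a local Weil family under the pairs `(ρ, ρ)` of equal
  scalars with `η(ρ) = 1` (`locAx_scalar`: `(ρ, ρ) = (d(ρ²) t(ρ), ρ)`).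
No holes, nothing assumed.
-/

set_option autoImplicit false

open IsDedekindDomain NumberField AutomorphicForm MeasureTheory Filter
open scoped MatrixGroups Topology RestrictedProduct

noncomputable section

namespace Fermat.Agent.LT.A2.H151

open Fermat.Agent.LT.H130 Fermat.Agent.LT.H556 Fermat.Agent.LT.A2 Fermat.Agent.LT.A2.WX467

variable {K : Type} [Field K] [NumberField K]

/-! ## Elements supported at an infinite place -/

open Classical in
/-- The element of `GL₂(𝔸_K)` with the component `M` at the infinite place `w`, trivial at every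
other place. -/
def locInf (w : InfinitePlace K) (M : Matrix (Fin 2) (Fin 2) w.Completion) (hM : M.det ≠ 0) :
    A0.G K :=
  mkG (Function.update (fun u => (1 : Matrix (Fin 2) (Fin 2) u.Completion)) w M) (fun _ => 1)
    (fun u => by
      by_cases h : u = w
      · subst h
        rw [Function.update_self]
        exact hM
      · rw [Function.update_of_ne h, Matrix.det_one]
        exact one_ne_zero)
    (fun v => by rw [Matrix.det_one]; exact one_ne_zero)
    (Filter.Eventually.of_forall fun v i j => one_integral v i j)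
    (Filter.Eventually.of_forall fun v i j => by rw [inv_one]; exact one_integral v i j)

theorem infMat_locInf_same (w : InfinitePlace K) (M : Matrix (Fin 2) (Fin 2) w.Completion)
    (hM : M.det ≠ 0) : infMat w (locInf w M hM) = M := by
  classical
  unfold locInf
  rw [infMat_mkG, Function.update_self]

theorem infMat_locInf_ne (w : InfinitePlace K) (M : Matrix (Fin 2) (Fin 2) w.Completion)
    (hM : M.det ≠ 0) {u : InfinitePlace K} (hu : u ≠ w) : infMat u (locInf w M hM) = 1 := by
  classical
  unfold locInf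
  rw [infMat_mkG, Function.update_of_ne hu]

theorem finComp_locInf (w : InfinitePlace K) (M : Matrix (Fin 2) (Fin 2) w.Completion)
    (hM : M.det ≠ 0) (v : HeightOneSpectrum (𝓞 K)) : A0.finComp v (locInf w M hM) = 1 := by
  unfold locInf
  rw [finComp_mkG]

theorem locInf_congr (w : InfinitePlace K) {M M' : Matrix (Fin 2) (Fin 2) w.Completion}
    (h : M = M') (hM : M.det ≠ 0) (hM' : M'.det ≠ 0) : locInf w M hM = locInf w M' hM' := by
  subst h
  rfl

/-- An element supported at `w` is `locInf w` of its component. -/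
theorem eq_locInf {w : InfinitePlace K} {g : A0.G K} (hg : A0.IsLocalAtInf w g) :
    g = locInf w (infMat w g) (infMat_det_ne_zero w g) := by
  refine gl_ext (fun u => ?_) (fun v => ?_)
  · by_cases h : u = w
    · subst h
      rw [infMat_locInf_same]
    · rw [infMat_locInf_ne _ _ _ h]
      exact infMat_eq_one_of_triv (hg.1 u h)
  · rw [finComp_locInf]
    exact hg.2 v

theorem locInf_pow (w : InfinitePlace K) (M : Matrix (Fin 2) (Fin 2) w.Completion)
    (hM : M.det ≠ 0) (N : ℕ) (hMN : (M ^ N).det ≠ 0) :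
    locInf w M hM ^ N = locInf w (M ^ N) hMN := by
  refine gl_ext (fun u => ?_) (fun v => ?_)
  · rw [infMat_pow]
    by_cases h : u = w
    · subst h
      rw [infMat_locInf_same, infMat_locInf_same]
    · rw [infMat_locInf_ne _ _ _ h, infMat_locInf_ne _ _ _ h, one_pow]
  · rw [finComp_pow, finComp_locInf, finComp_locInf, one_pow]

/-! ## Scalar matrices -/

theorem smul_one_eq_torMat {k : Type} [Field k] (t n σ : k) :
    (σ • (1 : Matrix (Fin 2) (Fin 2) k)) = torMat t n σ 0 := by
  ext i j
  fin_cases i <;> fin_cases j <;> simp [torMat]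

theorem inTorL_smul_one {k : Type} [Field k] (t n σ : k) :
    InTorL t n (σ • (1 : Matrix (Fin 2) (Fin 2) k)) :=
  ⟨σ, 0, smul_one_eq_torMat t n σ⟩

theorem det_smul_one {k : Type} [Field k] (σ : k) :
    (σ • (1 : Matrix (Fin 2) (Fin 2) k)).det = σ ^ 2 := by
  rw [Matrix.det_smul, Matrix.det_one, mul_one, Fintype.card_fin]

theorem smul_one_pow {k : Type} [Field k] (σ : k) (N : ℕ) :
    (σ • (1 : Matrix (Fin 2) (Fin 2) k)) ^ N = (σ ^ N) • (1 : Matrix (Fin 2) (Fin 2) k) := by
  rw [smul_pow, one_pow]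

theorem embMat_smul_one (u : InfinitePlace K) (σ : u.Completion) :
    embMat u (σ • (1 : Matrix (Fin 2) (Fin 2) u.Completion))
      = (InfinitePlace.Completion.extensionEmbedding u σ) • (1 : Matrix (Fin 2) (Fin 2) ℂ) := by
  funext i j
  by_cases h : i = j
  · subst h
    simp [embMat]
  · simp [embMat, Matrix.one_apply_ne h]

theorem embMat_one (u : InfinitePlace K) :
    embMat u (1 : Matrix (Fin 2) (Fin 2) u.Completion) = 1 := by
  have := embMat_smul_one u (1 : u.Completion)
  rwa [one_smul, map_one, one_smul] at this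

/-- A scalar of norm one is unitary. -/
theorem unitary_smul_one {z : ℂ} (hz : ‖z‖ = 1) :
    (z • (1 : Matrix (Fin 2) (Fin 2) ℂ)) * (z • (1 : Matrix (Fin 2) (Fin 2) ℂ)).conjTranspose
      = 1 := by
  rw [Matrix.conjTranspose_smul, Matrix.conjTranspose_one, smul_mul_smul_comm, mul_one]
  have : z * star z = 1 := by
    rw [Complex.star_def, Complex.mul_conj, Complex.normSq_eq_norm_sq, hz]
    simp
  rw [this, one_smul]

/-- The determinant of a unitary matrix has norm one. -/
theorem norm_det_of_unitary {U : Matrix (Fin 2) (Fin 2) ℂ} (hU : U * U.conjTranspose = 1) :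
    ‖U.det‖ = 1 := by
  have h := congrArg Matrix.det hU
  rw [Matrix.det_mul, Matrix.det_conjTranspose, Matrix.det_one, Complex.star_def,
    Complex.mul_conj, Complex.normSq_eq_norm_sq] at h
  have h' : ‖U.det‖ ^ 2 = 1 := by exact_mod_cast h
  have h0 : 0 ≤ ‖U.det‖ := norm_nonneg _
  nlinarith [sq_nonneg (‖U.det‖ - 1), sq_nonneg (‖U.det‖ + 1)]

theorem embMat_det (u : InfinitePlace K) (M : Matrix (Fin 2) (Fin 2) u.Completion) :
    (embMat u M).det = InfinitePlace.Completion.extensionEmbedding u M.det := by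
  have : embMat u M = M.map (InfinitePlace.Completion.extensionEmbedding u) := rfl
  rw [this]
  exact (RingHom.map_det _ _).symm

/-! ## Roots -/

theorem extensionEmbedding_injective (u : InfinitePlace K) :
    Function.Injective (InfinitePlace.Completion.extensionEmbedding u) :=
  (InfinitePlace.Completion.extensionEmbedding u).injective

/-- Every real number is in the image of the embedding of the completion. -/
theorem exists_preimage_real (u : InfinitePlace K) (x : ℝ) :
    ∃ y : u.Completion, InfinitePlace.Completion.extensionEmbedding u y = (x : ℂ) := by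
  rcases u.isReal_or_isComplex with hu | hu
  · obtain ⟨y, hy⟩ := InfinitePlace.Completion.surjective_extensionEmbeddingOfIsReal hu x
    refine ⟨y, ?_⟩
    rw [← InfinitePlace.Completion.extensionEmbeddingOfIsReal_apply hu, hy]
  · exact InfinitePlace.Completion.surjective_extensionEmbedding_of_isComplex hu _

/-- `N`-th roots of the elements with positive real image. -/
theorem exists_root_of_pos (u : InfinitePlace K) {N : ℕ} (hN : 0 < N) {ρ : u.Completion} {r : ℝ}
    (hr : 0 < r) (hρ : InfinitePlace.Completion.extensionEmbedding u ρ = (r : ℂ)) :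
    ∃ ρ' : u.Completion, ρ' ≠ 0 ∧ ρ' ^ N = ρ := by
  obtain ⟨y, hy⟩ := exists_preimage_real u (r ^ ((N : ℝ)⁻¹))
  have hyN : y ^ N = ρ := by
    apply extensionEmbedding_injective u
    rw [map_pow, hy, hρ, ← Complex.ofReal_pow, Real.rpow_inv_natCast_pow hr.le hN.ne']
  refine ⟨y, ?_, hyN⟩
  rintro rfl
  rw [zero_pow hN.ne'] at hyN
  rw [← hyN, map_zero] at hρ
  exact hr.ne' (by exact_mod_cast hρ.symm)

/-- `N`-th roots at a complex place. -/
theorem exists_root_of_isComplex {u : InfinitePlace K} (hu : u.IsComplex) {N : ℕ} (hN : 0 < N)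
    (d : u.Completion) : ∃ s : u.Completion, s ^ N = d := by
  obtain ⟨z, hz⟩ := IsAlgClosed.exists_pow_nat_eq
    (InfinitePlace.Completion.extensionEmbedding u d) hN
  obtain ⟨s, hs⟩ := InfinitePlace.Completion.surjective_extensionEmbedding_of_isComplex hu z
  refine ⟨s, extensionEmbedding_injective u ?_⟩
  rw [map_pow, hs, hz]

/-! ## The pairs of equal scalars -/

/-- **Invariance under the pairs `(ρ, ρ)` of equal scalars** with `η(ρ) = 1`:
`(ρ, ρ) = (d(ρ²) t(ρ), ρ)`. -/
theorem locAx_scalar {k : Type} [Field k] [TopologicalSpace k] {absv : k → ℝ} {t n : k}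
    {ψ : k → ℂ} {μ : @Measure k (borel k)} {γ : ℂ} {η : k → ℂ}
    {F : Matrix (Fin 2) (Fin 2) k → Matrix (Fin 2) (Fin 2) k → k × k → ℂ}
    (hax : LocAx absv t n ψ μ γ η F) {ρ : k} (hρ : ρ ≠ 0) (hη : η ρ = 1)
    (habs : Real.sqrt (absv (ρ ^ 2)) = absv ρ) (habs0 : absv ρ ≠ 0)
    (g m : Matrix (Fin 2) (Fin 2) k) (ξ : k × k) (hadm : AdmL t n g m) :
    F (g * (ρ • (1 : Matrix (Fin 2) (Fin 2) k))) (m * (ρ • (1 : Matrix (Fin 2) (Fin 2) k))) ξ
      = F g m ξ := by
  have hζdet : (ρ • (1 : Matrix (Fin 2) (Fin 2) k)).det ≠ 0 := by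
    rw [det_smul_one]
    exact pow_ne_zero 2 hρ
  have hadm' : AdmL t n (!![ρ, 0; 0, ρ⁻¹] * g) m := by
    refine ⟨hadm.1, ?_, hadm.2.2⟩
    rw [Matrix.det_mul, ← hadm.2.1]
    have : (!![ρ, 0; 0, ρ⁻¹] : Matrix (Fin 2) (Fin 2) k).det = 1 := by
      rw [Matrix.det_fin_two_of]
      field_simp
      ring
    rw [this, one_mul]
  have h1 := hax.tor _ (inTorL_smul_one t n ρ) hζdet (!![ρ, 0; 0, ρ⁻¹] * g) m ξ hadm'
  have h2 := hax.diag ρ hρ g m (actL (ρ • (1 : Matrix (Fin 2) (Fin 2) k))⁻¹ ξ) hadm
  have h3 : ρ • actL (ρ • (1 : Matrix (Fin 2) (Fin 2) k))⁻¹ ξ = ξ := by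
    have hinv : (ρ • (1 : Matrix (Fin 2) (Fin 2) k))⁻¹ = ρ⁻¹ • (1 : Matrix (Fin 2) (Fin 2) k) := by
      apply Matrix.inv_eq_right_inv
      rw [smul_mul_smul_comm, mul_one, mul_inv_cancel₀ hρ, one_smul]
    rw [hinv]
    ext
    · simp [actL, hρ]
    · simp [actL, hρ]
  have h4 : !![1, 0; 0, (ρ • (1 : Matrix (Fin 2) (Fin 2) k)).det] * (!![ρ, 0; 0, ρ⁻¹] * g)
      = g * (ρ • (1 : Matrix (Fin 2) (Fin 2) k)) := by
    rw [det_smul_one, ← mul_assoc, mul_smul_comm, mul_one]
    have : (!![1, 0; 0, ρ ^ 2] * !![ρ, 0; 0, ρ⁻¹] : Matrix (Fin 2) (Fin 2) k)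
        = ρ • (1 : Matrix (Fin 2) (Fin 2) k) := by
      ext i j
      fin_cases i <;> fin_cases j <;> simp [Matrix.mul_apply, Fin.sum_univ_two] <;> field_simp
    rw [this, smul_mul_assoc, one_mul]
  have h5 : (ρ • (1 : Matrix (Fin 2) (Fin 2) k)) * m
      = m * (ρ • (1 : Matrix (Fin 2) (Fin 2) k)) := by
    rw [smul_mul_assoc, one_mul, mul_smul_comm, mul_one]
  rw [h4, h5, h2, h3, hη, one_mul, det_smul_one, habs] at h1
  exact mul_left_cancel₀ (by exact_mod_cast habs0) h1

end Fermat.Agent.LT.A2.H151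

end
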