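import Fermat.Agent.LT.A2.H151.Trunc

/-!
# Row LT, tower A2, leaf A2.03.1.6 `WX467.RightInvC` -- part 5: the torus character
(helper151, OFF-MAIN)

* the torus in components (`inTorus_of_components`);
* `χT (m ^ N) = χT m ^ N`;
* **`chi_eq_one_of_tlev`**: `χT κ = 1` for `κ ∈ T(𝔸_K)` trivial at the infinite places with all
  finite components in the local level groups `Tlev v` (truncations, `FinAt.chi_triv`,
  continuity of `χT` on the torus).
No holes, nothing assumed.
-/

set_option autoImplicit false

open IsDedekindDomain NumberField AutomorphicForm MeasureTheory Filter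
open scoped MatrixGroups Topology RestrictedProduct

noncomputable section

namespace Fermat.Agent.LT.A2.H151

open Fermat.Agent.LT.H130 Fermat.Agent.LT.H556 Fermat.Agent.LT.A2 Fermat.Agent.LT.A2.WX467

variable {K : Type} [Field K] [NumberField K]

/-! ## The torus in components -/

theorem inTorL_iff {k : Type} [Field k] (t n : k) (M : Matrix (Fin 2) (Fin 2) k) :
    InTorL t n M ↔ M = torMat t n (M 0 0) (M 1 0) := by
  constructor
  · rintro ⟨a, b, rfl⟩
    simp [torMat]
  · intro h
    exact ⟨_, _, h⟩

theorem inTorL_one {k : Type} [Field k] (t n : k) :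
    InTorL t n (1 : Matrix (Fin 2) (Fin 2) k) :=
  ⟨1, 0, (torMat_one t n).symm⟩

theorem inTorL_inf_of_inTorus {t n : K} {g : A0.G K} (h : InTorus t n g) (u : InfinitePlace K) :
    InTorL (algebraMap K u.Completion t) (algebraMap K u.Completion n) (infMat u g) := by
  obtain ⟨a, b, hab⟩ := h
  refine ⟨pInf u a, pInf u b, ?_⟩
  rw [infMat_eq_map, hab, torMat_map]
  rfl

theorem inTorL_fin_of_inTorus {t n : K} {g : A0.G K} (h : InTorus t n g)
    (v : HeightOneSpectrum (𝓞 K)) :
    InTorL (algebraMap K (v.adicCompletion K) t) (algebraMap K (v.adicCompletion K) n)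
      (A0.finComp v g) := by
  obtain ⟨a, b, hab⟩ := h
  refine ⟨pFin v a, pFin v b, ?_⟩
  rw [finComp_eq_map, hab, torMat_map]
  rfl

/-- An element of `GL₂(𝔸_K)` with all components in the local tori is in the torus. -/
theorem inTorus_of_components {t n : K} {g : A0.G K}
    (h1 : ∀ u : InfinitePlace K,
      InTorL (algebraMap K u.Completion t) (algebraMap K u.Completion n) (infMat u g))
    (h2 : ∀ v : HeightOneSpectrum (𝓞 K),
      InTorL (algebraMap K (v.adicCompletion K) t) (algebraMap K (v.adicCompletion K) n)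
        (A0.finComp v g)) : InTorus t n g := by
  refine ⟨(g : Matrix (Fin 2) (Fin 2) (A0.Adl K)) 0 0,
    (g : Matrix (Fin 2) (Fin 2) (A0.Adl K)) 1 0, ?_⟩
  refine adlMatrix_ext (fun u => ?_) (fun v => ?_)
  · rw [torMat_map]
    exact (inTorL_iff _ _ _).mp (h1 u)
  · rw [torMat_map]
    exact (inTorL_iff _ _ _).mp (h2 v)

theorem inTorus_one (t n : K) : InTorus t n (1 : A0.G K) :=
  ⟨1, 0, by rw [Units.val_one, torMat_one]⟩

theorem inTorus_mul {t n : K} {m m' : A0.G K} (h : InTorus t n m) (h' : InTorus t n m') :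
    InTorus t n (m * m') := by
  obtain ⟨a, b, hab⟩ := h
  obtain ⟨a', b', hab'⟩ := h'
  exact ⟨_, _, by rw [Units.val_mul, hab, hab', torMat_mul]⟩

theorem inTorus_pow {t n : K} {m : A0.G K} (h : InTorus t n m) (N : ℕ) :
    InTorus t n (m ^ N) := by
  induction N with
  | zero => rw [pow_zero]; exact inTorus_one t n
  | succ N ih => rw [pow_succ]; exact inTorus_mul ih h

theorem chi_pow {t n : K} {χT : A0.G K → ℂ} (hχ : IsTorusChar t n χT) {m : A0.G K}
    (h : InTorus t n m) (N : ℕ) : χT (m ^ N) = χT m ^ N := by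
  induction N with
  | zero => rw [pow_zero, pow_zero]; exact hχ.one
  | succ N ih => rw [pow_succ, pow_succ, hχ.mul _ _ (inTorus_pow h N) h, ih]

/-- `χT` is trivial on the `N`-th powers of the torus, `N` the order of `χT`. -/
theorem chi_eq_one_of_pow {t n : K} {χT : A0.G K → ℂ} (hχ : IsTorusChar t n χT) :
    ∃ N : ℕ, 0 < N ∧ ∀ m : A0.G K, InTorus t n m → χT (m ^ N) = 1 := by
  obtain ⟨N, hN, h⟩ := hχ.fin_order
  exact ⟨N, hN, fun m hm => by rw [chi_pow hχ hm, h m hm]⟩

/-! ## Powers in components -/

theorem infMat_pow (u : InfinitePlace K) (g : A0.G K) (N : ℕ) :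
    infMat u (g ^ N) = infMat u g ^ N := by
  induction N with
  | zero => rw [pow_zero, pow_zero, infMat_one]
  | succ N ih => rw [pow_succ, pow_succ, infMat_mul, ih]

theorem finComp_pow (v : HeightOneSpectrum (𝓞 K)) (g : A0.G K) (N : ℕ) :
    A0.finComp v (g ^ N) = A0.finComp v g ^ N := by
  induction N with
  | zero => rw [pow_zero, pow_zero, finComp_one]
  | succ N ih => rw [pow_succ, pow_succ, finComp_mul, ih]

/-! ## Trivial components -/

theorem infMat_eq_one_of_triv {u : InfinitePlace K} {g : A0.G K} (h : A0.TrivAtInf u g) :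
    infMat u g = 1 :=
  Matrix.ext fun i j => h i j

theorem triv_of_infMat_eq_one {u : InfinitePlace K} {g : A0.G K} (h : infMat u g = 1) :
    A0.TrivAtInf u g := fun i j => congrFun (congrFun h i) j

/-! ## The character on the elements with components in the level groups -/

theorem trunc_empty {κ : A0.G K} (hinf : ∀ u : InfinitePlace K, infMat u κ = 1) :
    trunc ∅ κ = 1 := by
  refine gl_ext (fun u => ?_) (fun v => ?_)
  · rw [infMat_trunc, hinf, infMat_one]
  · rw [finComp_trunc_notMem κ (Finset.notMem_empty v), finComp_one]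

open Classical in
theorem trunc_insert {κ : A0.G K} (hinf : ∀ u : InfinitePlace K, infMat u κ = 1)
    {v : HeightOneSpectrum (𝓞 K)} {S : Finset (HeightOneSpectrum (𝓞 K))} (hv : v ∉ S) :
    trunc (insert v S) κ = trunc {v} κ * trunc S κ := by
  refine gl_ext (fun u => ?_) (fun v' => ?_)
  · rw [infMat_mul, infMat_trunc, infMat_trunc, infMat_trunc, hinf, one_mul]
  · rw [finComp_mul]
    by_cases h : v' = v
    · subst h
      rw [finComp_trunc_mem κ (Finset.mem_insert_self _ _),
        finComp_trunc_mem κ (Finset.mem_singleton_self _), finComp_trunc_notMem κ hv, mul_one]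
    · by_cases h' : v' ∈ S
      · rw [finComp_trunc_mem κ (Finset.mem_insert_of_mem h'), finComp_trunc_mem κ h',
          finComp_trunc_notMem κ (by simpa using h), one_mul]
      · rw [finComp_trunc_notMem κ (by simp [h, h']), finComp_trunc_notMem κ h',
          finComp_trunc_notMem κ (by simpa using h), one_mul]

theorem inTorus_trunc {t n : K} {κ : A0.G K} (hκ : InTorus t n κ)
    (S : Finset (HeightOneSpectrum (𝓞 K))) : InTorus t n (trunc S κ) := by
  classical
  refine inTorus_of_components (fun u => ?_) (fun v => ?_)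
  · rw [infMat_trunc]
    exact inTorL_inf_of_inTorus hκ u
  · rw [finComp_trunc]
    split_ifs
    · exact inTorL_fin_of_inTorus hκ v
    · exact inTorL_one _ _

/-- **The character is trivial on the elements of the torus, trivial at the infinite places, with
all finite components in the local level groups.** -/
theorem chi_eq_one_of_tlev (L : WData K) (hG : L.IsGood) {κ : A0.G K}
    (hκ : InTorus L.t L.n κ) (hinf : ∀ u : InfinitePlace K, infMat u κ = 1)
    (hfin : ∀ v : HeightOneSpectrum (𝓞 K), A0.finComp v κ ∈ L.Tlev v) : L.χT κ = 1 := by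
  classical
  have hS : ∀ S : Finset (HeightOneSpectrum (𝓞 K)), L.χT (trunc S κ) = 1 := by
    intro S
    induction S using Finset.induction_on with
    | empty => rw [trunc_empty hinf]; exact hG.torus.one
    | insert v S hv ih =>
      rw [trunc_insert hinf hv, hG.torus.mul _ _ (inTorus_trunc hκ _) (inTorus_trunc hκ _), ih,
        mul_one]
      refine (hG.fin v).chi_triv _ ⟨fun u => ?_, fun v' hv' => ?_⟩ ?_
      · apply triv_of_infMat_eq_one
        rw [infMat_trunc, hinf]
      · exact finComp_trunc_notMem κ (by simpa using hv')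
      · rw [finComp_trunc_mem κ (Finset.mem_singleton_self _)]
        exact hfin v
  have h1 : Tendsto (fun S => trunc S κ) atTop (𝓝[{m | InTorus L.t L.n m}] κ) :=
    tendsto_nhdsWithin_iff.mpr ⟨tendsto_trunc κ,
      Filter.Eventually.of_forall fun S => inTorus_trunc hκ S⟩
  have h2 : Tendsto (fun S => L.χT (trunc S κ)) atTop (𝓝 (L.χT κ)) :=
    (hG.torus.cont κ hκ).tendsto.comp h1
  have h3 : Tendsto (fun S : Finset (HeightOneSpectrum (𝓞 K)) => L.χT (trunc S κ)) atTop
      (𝓝 1) := by
    simp only [hS]
    exact tendsto_const_nhds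
  exact tendsto_nhds_unique h2 h3

end Fermat.Agent.LT.A2.H151

end
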