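import Fermat.Agent.LT.A2.H467.WeilExSpec

/-!
# Row LT, tower A2, leaf A2.03.1.6 `WX467.RightInvC` -- part 1: components (helper151, OFF-MAIN)

The projections of the adele ring to the completions, the components of products, inverses and
determinants of elements of `GL₂(𝔸_K)`, local admissibility from global admissibility, and the
factorwise comparison of the values of the product family `WData.F`.
No holes, nothing assumed.
-/

set_option autoImplicit false

open IsDedekindDomain NumberField AutomorphicForm MeasureTheory
open scoped MatrixGroups Topology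

noncomputable section

namespace Fermat.Agent.LT.A2.H151

open Fermat.Agent.LT.H130 Fermat.Agent.LT.H556 Fermat.Agent.LT.A2 Fermat.Agent.LT.A2.WX467

variable {K : Type} [Field K] [NumberField K]

/-- The projection of the adele ring to the completion at the infinite place `u`. -/
def pInf (u : InfinitePlace K) : A0.Adl K →+* u.Completion where
  toFun x := x.1 u
  map_one' := rfl
  map_mul' _ _ := rfl
  map_zero' := rfl
  map_add' _ _ := rfl

/-- The projection of the adele ring to the completion at the finite place `v`. -/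
def pFin (v : HeightOneSpectrum (𝓞 K)) : A0.Adl K →+* v.adicCompletion K where
  toFun x := x.2 v
  map_one' := rfl
  map_mul' _ _ := rfl
  map_zero' := rfl
  map_add' _ _ := rfl

@[simp] theorem pInf_apply (u : InfinitePlace K) (x : A0.Adl K) : pInf u x = x.1 u := rfl

@[simp] theorem pFin_apply (v : HeightOneSpectrum (𝓞 K)) (x : A0.Adl K) : pFin v x = x.2 v := rfl

theorem pInf_algebraMap (u : InfinitePlace K) (x : K) :
    pInf u (algebraMap K (A0.Adl K) x) = algebraMap K u.Completion x := rfl

theorem pFin_algebraMap (v : HeightOneSpectrum (𝓞 K)) (x : K) :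
    pFin v (algebraMap K (A0.Adl K) x) = algebraMap K (v.adicCompletion K) x := rfl

/-- An adele is determined by its components. -/
theorem adl_ext {x y : A0.Adl K} (h1 : ∀ u : InfinitePlace K, pInf u x = pInf u y)
    (h2 : ∀ v : HeightOneSpectrum (𝓞 K), pFin v x = pFin v y) : x = y := by
  refine Prod.ext (funext h1) ?_
  exact FiniteAdeleRing.ext (K := K) h2

theorem infMat_eq_map (u : InfinitePlace K) (g : A0.G K) :
    infMat u g = (g : Matrix (Fin 2) (Fin 2) (A0.Adl K)).map (pInf u) := rfl

theorem finComp_eq_map (v : HeightOneSpectrum (𝓞 K)) (g : A0.G K) :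
    A0.finComp v g = (g : Matrix (Fin 2) (Fin 2) (A0.Adl K)).map (pFin v) := rfl

theorem infMat_mul (u : InfinitePlace K) (g h : A0.G K) :
    infMat u (g * h) = infMat u g * infMat u h := by
  rw [infMat_eq_map, infMat_eq_map, infMat_eq_map, Units.val_mul, Matrix.map_mul]

theorem finComp_mul (v : HeightOneSpectrum (𝓞 K)) (g h : A0.G K) :
    A0.finComp v (g * h) = A0.finComp v g * A0.finComp v h := by
  rw [finComp_eq_map, finComp_eq_map, finComp_eq_map, Units.val_mul, Matrix.map_mul]

theorem infMat_one (u : InfinitePlace K) : infMat u (1 : A0.G K) = 1 := by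
  rw [infMat_eq_map, Units.val_one, Matrix.map_one _ (map_zero _) (map_one _)]

theorem finComp_one (v : HeightOneSpectrum (𝓞 K)) : A0.finComp v (1 : A0.G K) = 1 := by
  rw [finComp_eq_map, Units.val_one, Matrix.map_one _ (map_zero _) (map_one _)]

theorem infMat_det (u : InfinitePlace K) (g : A0.G K) :
    (infMat u g).det
      = pInf u ((Matrix.GeneralLinearGroup.det g : (A0.Adl K)ˣ) : A0.Adl K) := by
  rw [infMat_eq_map, Matrix.GeneralLinearGroup.val_det_apply, RingHom.map_det]
  rfl

theorem finComp_det (v : HeightOneSpectrum (𝓞 K)) (g : A0.G K) :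
    (A0.finComp v g).det
      = pFin v ((Matrix.GeneralLinearGroup.det g : (A0.Adl K)ˣ) : A0.Adl K) := by
  rw [finComp_eq_map, Matrix.GeneralLinearGroup.val_det_apply, RingHom.map_det]
  rfl

theorem infMat_det_ne_zero (u : InfinitePlace K) (g : A0.G K) : (infMat u g).det ≠ 0 := by
  rw [infMat_det]
  exact ((Matrix.GeneralLinearGroup.det g).isUnit.map (pInf u)).ne_zero

theorem finComp_det_ne_zero (v : HeightOneSpectrum (𝓞 K)) (g : A0.G K) :
    (A0.finComp v g).det ≠ 0 := by
  rw [finComp_det]
  exact ((Matrix.GeneralLinearGroup.det g).isUnit.map (pFin v)).ne_zero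

theorem infMat_inv (u : InfinitePlace K) (g : A0.G K) :
    infMat u g⁻¹ = (infMat u g)⁻¹ := by
  symm
  apply Matrix.inv_eq_right_inv
  rw [← infMat_mul, mul_inv_cancel, infMat_one]

theorem finComp_inv (v : HeightOneSpectrum (𝓞 K)) (g : A0.G K) :
    A0.finComp v g⁻¹ = (A0.finComp v g)⁻¹ := by
  symm
  apply Matrix.inv_eq_right_inv
  rw [← finComp_mul, mul_inv_cancel, finComp_one]

theorem torMat_map {R S : Type*} [CommRing R] [CommRing S] (f : R →+* S) (t n a b : R) :
    (torMat t n a b).map f = torMat (f t) (f n) (f a) (f b) := by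
  ext i j
  fin_cases i <;> fin_cases j <;> simp [torMat]

theorem torMat_det {R : Type*} [CommRing R] (t n a b : R) :
    (torMat t n a b).det = a * (a + t * b) + n * b * b := by
  rw [Matrix.det_fin_two]
  simp only [torMat, Matrix.of_apply, Matrix.cons_val', Matrix.cons_val_zero, Matrix.cons_val_one,
    Matrix.cons_val_fin_one]
  ring

theorem torMat_one {R : Type*} [CommRing R] (t n : R) : torMat t n 1 0 = 1 := by
  ext i j
  fin_cases i <;> fin_cases j <;> simp [torMat]

theorem torMat_mul {R : Type*} [CommRing R] (t n a b a' b' : R) :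
    torMat t n a b * torMat t n a' b'
      = torMat t n (a * a' - n * b * b') (a * b' + b * a' + t * b * b') := by
  ext i j
  fin_cases i <;> fin_cases j <;> simp [torMat, Matrix.mul_apply, Fin.sum_univ_two] <;> ring

/-- Local admissibility at a finite place from global admissibility. -/
theorem admL_fin (L : WData K) (v : HeightOneSpectrum (𝓞 K)) {g m : A0.G K}
    (h : Adm L.toKData.t L.toKData.n g m) :
    AdmL (L.tfin v) (L.nfin v) (A0.finComp v g) (A0.finComp v m) := by
  obtain ⟨⟨a, b, hab⟩, hdet⟩ := h
  refine ⟨⟨pFin v a, pFin v b, ?_⟩, ?_, finComp_det_ne_zero v m⟩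
  · rw [finComp_eq_map, hab, torMat_map]
    rfl
  · rw [finComp_det, finComp_det, hdet]

/-- Local admissibility at an infinite place from global admissibility. -/
theorem admL_inf (L : WData K) (u : InfinitePlace K) {g m : A0.G K}
    (h : Adm L.toKData.t L.toKData.n g m) :
    AdmL (L.tinf u) (L.ninf u) (infMat u g) (infMat u m) := by
  obtain ⟨⟨a, b, hab⟩, hdet⟩ := h
  refine ⟨⟨pInf u a, pInf u b, ?_⟩, ?_, infMat_det_ne_zero u m⟩
  · rw [infMat_eq_map, hab, torMat_map]
    rfl
  · rw [infMat_det, infMat_det, hdet]

/-- **Factorwise comparison**: if every local factor is unchanged, the product family is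
unchanged. -/
theorem F_congr (L : WData K) {g m g' m' : A0.G K}
    (hinf : ∀ u : InfinitePlace K,
      L.Finf u (infMat u g') (infMat u m') = L.Finf u (infMat u g) (infMat u m))
    (hfin : ∀ v : HeightOneSpectrum (𝓞 K),
      L.Ffin v (A0.finComp v g') (A0.finComp v m') = L.Ffin v (A0.finComp v g) (A0.finComp v m))
    (ξ : A0.Adl K × A0.Adl K) : L.toKData.F g' m' ξ = L.toKData.F g m ξ := by
  change L.F g' m' ξ = L.F g m ξ
  unfold WData.F prodFn
  simp only [hinf, hfin]

end Fermat.Agent.LT.A2.H151

end
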