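import Fermat.Agent.LT.A2.H467.WeilExSpec

/-!
# Row LT, tower A2, leaf A2.03.1.6 `WX467.RightInvC` -- part 2: the level at a good place
(helper151, OFF-MAIN)

At a finite place `v` not dividing the ideal `𝔫` the closure of `𝔫` in `K_v` contains `𝒪_v`;
hence an integral matrix with integral inverse is in the local level group `InLevL 𝔫 v`.
No holes, nothing assumed.
-/

set_option autoImplicit false

open IsDedekindDomain NumberField AutomorphicForm MeasureTheory
open scoped MatrixGroups Topology

noncomputable section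

namespace Fermat.Agent.LT.A2.H151

open Fermat.Agent.LT.H130 Fermat.Agent.LT.H556 Fermat.Agent.LT.A2 Fermat.Agent.LT.A2.WX467

variable {K : Type} [Field K] [NumberField K]

/-- The global integers are dense in the local integers. -/
theorem integers_subset_closure (v : HeightOneSpectrum (𝓞 K)) {y : v.adicCompletion K}
    (hy : y ∈ v.adicCompletionIntegers K) :
    y ∈ closure (Set.range fun r : 𝓞 K =>
      algebraMap K (v.adicCompletion K) (algebraMap (𝓞 K) K r)) := by
  rw [mem_closure_iff_nhds]
  intro s hs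
  have hint : (v.adicCompletionIntegers K : Set (v.adicCompletion K)) ∈ 𝓝 y :=
    (Valued.isOpen_valuationSubring (v.adicCompletion K)).mem_nhds hy
  obtain ⟨γ, hγ⟩ := Valued.mem_nhds.mp hs
  have hball : {z : v.adicCompletion K | Valued.v.restrict (z - y) < γ.1} ∈ 𝓝 y :=
    Valued.mem_nhds.mpr ⟨γ, subset_rfl⟩
  obtain ⟨k, hk1, hk2⟩ := (HeightOneSpectrum.denseRange_algebraMap (K := K) v).mem_nhds
    (Filter.inter_mem hint hball)
  have hk1' : v.valuation K k ≤ 1 := by
    have := (HeightOneSpectrum.mem_adicCompletionIntegers (𝓞 K) K v).mp hk1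
    rwa [show algebraMap K (v.adicCompletion K) k = ((k : K) : v.adicCompletion K) from rfl,
      HeightOneSpectrum.valuedAdicCompletion_eq_valuation'] at this
  have hγ0 : MonoidWithZeroHom.ValueGroup₀.embedding γ.1 ≠ 0 := by
    intro h
    simp at h
  obtain ⟨a, ha⟩ := HeightOneSpectrum.exists_valuation_sub_lt_of_integer v hk1' (Units.mk0 _ hγ0)
  refine ⟨algebraMap K (v.adicCompletion K) (algebraMap (𝓞 K) K a), hγ ?_, ⟨a, rfl⟩⟩
  change Valued.v.restrict (_ - y) < γ.1
  rw [Valuation.restrict_lt_iff_lt_embedding]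
  have hk2' : Valued.v (algebraMap K (v.adicCompletion K) k - y)
      < MonoidWithZeroHom.ValueGroup₀.embedding γ.1 := by
    have h := hk2
    change Valued.v.restrict (_ - y) < γ.1 at h
    rwa [Valuation.restrict_lt_iff_lt_embedding] at h
  have ha' : Valued.v (algebraMap K (v.adicCompletion K) (algebraMap (𝓞 K) K a)
      - algebraMap K (v.adicCompletion K) k) < MonoidWithZeroHom.ValueGroup₀.embedding γ.1 := by
    rw [← map_sub,
      show algebraMap K (v.adicCompletion K) (algebraMap (𝓞 K) K a - k)
        = (((algebraMap (𝓞 K) K a - k : K)) : v.adicCompletion K) from rfl,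
      HeightOneSpectrum.valuedAdicCompletion_eq_valuation']
    simpa using ha
  have : algebraMap K (v.adicCompletion K) (algebraMap (𝓞 K) K a) - y
      = (algebraMap K (v.adicCompletion K) (algebraMap (𝓞 K) K a)
          - algebraMap K (v.adicCompletion K) k)
        + (algebraMap K (v.adicCompletion K) k - y) := by ring
  rw [this]
  exact lt_of_le_of_lt (Valuation.map_add _ _ _) (max_lt ha' hk2')

/-- At a place `v` not dividing `𝔫` the closure of `𝔫` in `K_v` contains `𝒪_v`. -/
theorem integers_subset_idealClosure (𝔫 : Ideal (𝓞 K)) (v : HeightOneSpectrum (𝓞 K))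
    (hv : ¬ v.asIdeal ∣ 𝔫) {x : v.adicCompletion K} (hx : x ∈ v.adicCompletionIntegers K) :
    x ∈ A0.idealClosure 𝔫 v := by
  obtain ⟨e, he𝔫, hev⟩ : ∃ e ∈ 𝔫, e ∉ v.asIdeal := by
    rw [Ideal.dvd_iff_le] at hv
    exact SetLike.not_le_iff_exists.mp hv
  set e' : v.adicCompletion K := algebraMap K (v.adicCompletion K) (algebraMap (𝓞 K) K e)
    with he'
  have hve : Valued.v e' = 1 := by
    rw [he', show algebraMap K (v.adicCompletion K) (algebraMap (𝓞 K) K e)
        = (((algebraMap (𝓞 K) K e : K)) : v.adicCompletion K) from rfl,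
      HeightOneSpectrum.valuedAdicCompletion_eq_valuation']
    exact (HeightOneSpectrum.valuation_eq_one_iff_notMem (K := K) v).mpr hev
  have he0 : e' ≠ 0 := by
    intro h
    rw [h, map_zero] at hve
    exact zero_ne_one hve
  have hy : x / e' ∈ v.adicCompletionIntegers K := by
    rw [HeightOneSpectrum.mem_adicCompletionIntegers, map_div₀, hve, div_one]
    exact (HeightOneSpectrum.mem_adicCompletionIntegers (𝓞 K) K v).mp hx
  have h1 := integers_subset_closure v hy
  have hcont : Continuous fun z : v.adicCompletion K => e' * z := continuous_const.mul continuous_id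
  have h2 := image_closure_subset_closure_image hcont (Set.mem_image_of_mem _ h1)
  have h3 : e' * (x / e') = x := by field_simp
  rw [h3] at h2
  refine closure_mono ?_ h2
  rintro _ ⟨_, ⟨r, rfl⟩, rfl⟩
  refine ⟨e * r, 𝔫.mul_mem_right r he𝔫, ?_⟩
  simp only [he', map_mul]

/-- An integral matrix with integral inverse is in the local level group at a place not dividing
the level. -/
theorem inLevL_of_integral (𝔫 : Ideal (𝓞 K)) (v : HeightOneSpectrum (𝓞 K))
    (hv : ¬ v.asIdeal ∣ 𝔫) {k : Matrix (Fin 2) (Fin 2) (v.adicCompletion K)}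
    (hdet : k.det ≠ 0) (hk : ∀ i j, k i j ∈ v.adicCompletionIntegers K)
    (hk' : ∀ i j, k⁻¹ i j ∈ v.adicCompletionIntegers K) : InLevL 𝔫 v k := by
  have h1 : ∀ i j : Fin 2,
      (1 : Matrix (Fin 2) (Fin 2) (v.adicCompletion K)) i j ∈ v.adicCompletionIntegers K := by
    intro i j
    by_cases h : i = j
    · subst h
      rw [Matrix.one_apply_eq]
      exact one_mem _
    · rw [Matrix.one_apply_ne h]
      exact zero_mem _
  refine ⟨hdet, fun i j => ⟨?_, ?_⟩⟩
  · apply integers_subset_idealClosure 𝔫 v hv
    rw [Matrix.sub_apply]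
    exact sub_mem (hk i j) (h1 i j)
  · apply integers_subset_idealClosure 𝔫 v hv
    rw [Matrix.sub_apply]
    exact sub_mem (hk' i j) (h1 i j)

end Fermat.Agent.LT.A2.H151

end
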