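import Fermat.Agent.LT.A2.H151.Comp

/-!
# Row LT, tower A2, leaf A2.03.1.6 `WX467.RightInvC` -- part 3: elements from components
(helper151, OFF-MAIN)

An element of `GL₂(𝔸_K)` from its local components (integral with integral inverse at almost all
finite places), extensionality, and the CONVERGENCE OF THE TRUNCATIONS: the element with the
components of `g` at the places of a finite set `S` of finite places and at the infinite places,
and trivial elsewhere, tends to `g` along `S`.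
No holes, nothing assumed.
-/

set_option autoImplicit false

open IsDedekindDomain NumberField AutomorphicForm MeasureTheory Filter
open scoped MatrixGroups Topology RestrictedProduct

noncomputable section

namespace Fermat.Agent.LT.A2.H151

open Fermat.Agent.LT.H130 Fermat.Agent.LT.H556 Fermat.Agent.LT.A2 Fermat.Agent.LT.A2.WX467

variable {K : Type} [Field K] [NumberField K]

/-! ## Extensionality -/

/-- A matrix over the adeles is determined by its components. -/
theorem adlMatrix_ext {M N : Matrix (Fin 2) (Fin 2) (A0.Adl K)}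
    (h1 : ∀ u : InfinitePlace K, M.map (pInf u) = N.map (pInf u))
    (h2 : ∀ v : HeightOneSpectrum (𝓞 K), M.map (pFin v) = N.map (pFin v)) : M = N := by
  ext i j
  refine adl_ext (fun u => ?_) (fun v => ?_)
  · exact congrFun (congrFun (h1 u) i) j
  · exact congrFun (congrFun (h2 v) i) j

/-- An element of `GL₂(𝔸_K)` is determined by its components. -/
theorem gl_ext {g h : A0.G K} (h1 : ∀ u : InfinitePlace K, infMat u g = infMat u h)
    (h2 : ∀ v : HeightOneSpectrum (𝓞 K), A0.finComp v g = A0.finComp v h) : g = h :=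
  Units.ext (adlMatrix_ext h1 h2)

/-! ## Construction -/

/-- The adele with the components `a u`, `c v`. -/
def mkAdl (a : ∀ u : InfinitePlace K, u.Completion)
    (c : ∀ v : HeightOneSpectrum (𝓞 K), v.adicCompletion K)
    (hc : ∀ᶠ v in cofinite, c v ∈ v.adicCompletionIntegers K) : A0.Adl K :=
  (a, ⟨c, hc⟩)

/-- The matrix over the adeles with the components `Minf u`, `Mfin v`. -/
def mkM (Minf : ∀ u : InfinitePlace K, Matrix (Fin 2) (Fin 2) u.Completion)
    (Mfin : ∀ v : HeightOneSpectrum (𝓞 K), Matrix (Fin 2) (Fin 2) (v.adicCompletion K))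
    (hM : ∀ᶠ v in cofinite, ∀ i j, Mfin v i j ∈ v.adicCompletionIntegers K) :
    Matrix (Fin 2) (Fin 2) (A0.Adl K) :=
  Matrix.of fun i j => mkAdl (fun u => Minf u i j) (fun v => Mfin v i j)
    (hM.mono fun _ h => h i j)

theorem mkM_mapInf (Minf : ∀ u : InfinitePlace K, Matrix (Fin 2) (Fin 2) u.Completion)
    (Mfin : ∀ v : HeightOneSpectrum (𝓞 K), Matrix (Fin 2) (Fin 2) (v.adicCompletion K))
    (hM : ∀ᶠ v in cofinite, ∀ i j, Mfin v i j ∈ v.adicCompletionIntegers K)
    (u : InfinitePlace K) : (mkM Minf Mfin hM).map (pInf u) = Minf u := by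
  ext i j; rfl

theorem mkM_mapFin (Minf : ∀ u : InfinitePlace K, Matrix (Fin 2) (Fin 2) u.Completion)
    (Mfin : ∀ v : HeightOneSpectrum (𝓞 K), Matrix (Fin 2) (Fin 2) (v.adicCompletion K))
    (hM : ∀ᶠ v in cofinite, ∀ i j, Mfin v i j ∈ v.adicCompletionIntegers K)
    (v : HeightOneSpectrum (𝓞 K)) : (mkM Minf Mfin hM).map (pFin v) = Mfin v := by
  ext i j; rfl

/-- The element of `GL₂(𝔸_K)` with the components `Minf u`, `Mfin v`. -/
def mkG (Minf : ∀ u : InfinitePlace K, Matrix (Fin 2) (Fin 2) u.Completion)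
    (Mfin : ∀ v : HeightOneSpectrum (𝓞 K), Matrix (Fin 2) (Fin 2) (v.adicCompletion K))
    (hinf : ∀ u, (Minf u).det ≠ 0) (hfin : ∀ v, (Mfin v).det ≠ 0)
    (hM : ∀ᶠ v in cofinite, ∀ i j, Mfin v i j ∈ v.adicCompletionIntegers K)
    (hM' : ∀ᶠ v in cofinite, ∀ i j, (Mfin v)⁻¹ i j ∈ v.adicCompletionIntegers K) : A0.G K where
  val := mkM Minf Mfin hM
  inv := mkM (fun u => (Minf u)⁻¹) (fun v => (Mfin v)⁻¹) hM'
  val_inv := by
    refine adlMatrix_ext (fun u => ?_) (fun v => ?_)
    · rw [Matrix.map_mul, Matrix.map_one _ (map_zero _) (map_one _), mkM_mapInf, mkM_mapInf,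
        Matrix.mul_nonsing_inv _ (isUnit_iff_ne_zero.mpr (hinf u))]
    · rw [Matrix.map_mul, Matrix.map_one _ (map_zero _) (map_one _), mkM_mapFin, mkM_mapFin,
        Matrix.mul_nonsing_inv _ (isUnit_iff_ne_zero.mpr (hfin v))]
  inv_val := by
    refine adlMatrix_ext (fun u => ?_) (fun v => ?_)
    · rw [Matrix.map_mul, Matrix.map_one _ (map_zero _) (map_one _), mkM_mapInf, mkM_mapInf,
        Matrix.nonsing_inv_mul _ (isUnit_iff_ne_zero.mpr (hinf u))]
    · rw [Matrix.map_mul, Matrix.map_one _ (map_zero _) (map_one _), mkM_mapFin, mkM_mapFin,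
        Matrix.nonsing_inv_mul _ (isUnit_iff_ne_zero.mpr (hfin v))]

theorem infMat_mkG (Minf : ∀ u : InfinitePlace K, Matrix (Fin 2) (Fin 2) u.Completion)
    (Mfin : ∀ v : HeightOneSpectrum (𝓞 K), Matrix (Fin 2) (Fin 2) (v.adicCompletion K))
    (hinf : ∀ u, (Minf u).det ≠ 0) (hfin : ∀ v, (Mfin v).det ≠ 0)
    (hM : ∀ᶠ v in cofinite, ∀ i j, Mfin v i j ∈ v.adicCompletionIntegers K)
    (hM' : ∀ᶠ v in cofinite, ∀ i j, (Mfin v)⁻¹ i j ∈ v.adicCompletionIntegers K)
    (u : InfinitePlace K) : infMat u (mkG Minf Mfin hinf hfin hM hM') = Minf u := by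
  ext i j; rfl

theorem finComp_mkG (Minf : ∀ u : InfinitePlace K, Matrix (Fin 2) (Fin 2) u.Completion)
    (Mfin : ∀ v : HeightOneSpectrum (𝓞 K), Matrix (Fin 2) (Fin 2) (v.adicCompletion K))
    (hinf : ∀ u, (Minf u).det ≠ 0) (hfin : ∀ v, (Mfin v).det ≠ 0)
    (hM : ∀ᶠ v in cofinite, ∀ i j, Mfin v i j ∈ v.adicCompletionIntegers K)
    (hM' : ∀ᶠ v in cofinite, ∀ i j, (Mfin v)⁻¹ i j ∈ v.adicCompletionIntegers K)
    (v : HeightOneSpectrum (𝓞 K)) : A0.finComp v (mkG Minf Mfin hinf hfin hM hM') = Mfin v := by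
  ext i j; rfl

theorem inv_mkG_val (Minf : ∀ u : InfinitePlace K, Matrix (Fin 2) (Fin 2) u.Completion)
    (Mfin : ∀ v : HeightOneSpectrum (𝓞 K), Matrix (Fin 2) (Fin 2) (v.adicCompletion K))
    (hinf : ∀ u, (Minf u).det ≠ 0) (hfin : ∀ v, (Mfin v).det ≠ 0)
    (hM : ∀ᶠ v in cofinite, ∀ i j, Mfin v i j ∈ v.adicCompletionIntegers K)
    (hM' : ∀ᶠ v in cofinite, ∀ i j, (Mfin v)⁻¹ i j ∈ v.adicCompletionIntegers K) :
    (((mkG Minf Mfin hinf hfin hM hM')⁻¹ : A0.G K) : Matrix (Fin 2) (Fin 2) (A0.Adl K))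
      = mkM (fun u => (Minf u)⁻¹) (fun v => (Mfin v)⁻¹) hM' := rfl

/-! ## Integrality of the components of an element -/

theorem eventually_integral (g : A0.G K) :
    ∀ᶠ v in cofinite, ∀ i j, A0.finComp v g i j ∈ v.adicCompletionIntegers K := by
  have h : ∀ i j : Fin 2, ∀ᶠ v in cofinite,
      A0.finComp v g i j ∈ v.adicCompletionIntegers K := fun i j =>
    ((g : Matrix (Fin 2) (Fin 2) (A0.Adl K)) i j).2.2
  have h' : ∀ i : Fin 2, ∀ᶠ v in cofinite, ∀ j,
      A0.finComp v g i j ∈ v.adicCompletionIntegers K := fun i =>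
    (Filter.eventually_all).mpr (h i)
  exact (Filter.eventually_all).mpr h'

theorem eventually_integral_inv (g : A0.G K) :
    ∀ᶠ v in cofinite, ∀ i j, (A0.finComp v g)⁻¹ i j ∈ v.adicCompletionIntegers K := by
  refine (eventually_integral g⁻¹).mono fun v h i j => ?_
  rw [← finComp_inv]
  exact h i j

end Fermat.Agent.LT.A2.H151

end
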