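import Fermat.Agent.LT.A2.H151.Arch
import Fermat.Agent.LT.A2.H151.Dense

/-!
# Row LT, tower A2, leaf A2.03.1.6 `WX467.RightInvC` (helper151, OFF-MAIN)

    rightInvC151 : WX467.RightInvC            (UNCONDITIONAL)

Right invariance of the product family `WData.F` of good product data:

* `good_inv151`, `cpx_inv151` (`InvOut`): factor by factor, from `FinAt.right_inv` (the level
  group at a good place is `GL₂(𝒪_v)`: `inLevL_of_integral`; `Tlev v = T(𝒪_v)`: `GoodAt.tlev`)
  and `CpxAt.right_inv`;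
* `level151`: the global `κ` is assembled from the local `κ_v` of `FinAt.right_ex` (integral at
  the good places, hence an adelic point); `χT κ = 1` by `chi_eq_one_of_tlev` (truncations,
  `FinAt.chi_triv`, continuity of `χT`);
* `arch_scalar151`: `κ = z`; `(ρ, ρ) = (d(ρ²) t(ρ), ρ)` acts by `η_w(ρ) = 1` (`locAx_scalar`);
  `χT z = 1` because `z` is an `N`-th power in the torus, `N` the order of `χT`;
* `arch_compact151`: `κ = σ · 1`, `σ² = det k`, `σ = s ^ N` (roots in `K_w = ℂ`; `det k = 1`
  at a real place), so that `χT κ = 1`.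

No holes, nothing assumed; the hypotheses `T1.T1Out K` and `BorelOut` are not used.
-/

set_option autoImplicit false

open IsDedekindDomain NumberField AutomorphicForm MeasureTheory Filter
open scoped MatrixGroups Topology RestrictedProduct

noncomputable section

namespace Fermat.Agent.LT.A2.H151

open Fermat.Agent.LT.H130 Fermat.Agent.LT.H556 Fermat.Agent.LT.A2 Fermat.Agent.LT.A2.WX467

variable {K : Type} [Field K] [NumberField K]

/-! ## `InvOut` -/

theorem good_inv151 (L : WData K) (hG : L.IsGood) (v : HeightOneSpectrum (𝓞 K))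
    (hv : ¬ v.asIdeal ∣ L.toKData.π.level) (k κ : A0.G K) (hk : WL.InMaxCompactAt v k)
    (hκ : WL.InTorusIntAt L.toKData.t L.toKData.n v κ)
    (hdet : Matrix.GeneralLinearGroup.det k = Matrix.GeneralLinearGroup.det κ)
    (g m : A0.G K) (ξ : A0.Adl K × A0.Adl K) (hadm : Adm L.toKData.t L.toKData.n g m) :
    L.toKData.F (g * k) (m * κ) ξ = L.toKData.F g m ξ := by
  obtain ⟨hkloc, hkint, hkint'⟩ := hk
  obtain ⟨hκtor, hκloc, hκint, hκint'⟩ := hκ
  refine F_congr L (fun u => ?_) (fun v' => ?_) ξ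
  · rw [infMat_mul, infMat_mul, infMat_eq_one_of_triv (hkloc.1 u),
      infMat_eq_one_of_triv (hκloc.1 u), mul_one, mul_one]
  · rw [finComp_mul, finComp_mul]
    by_cases h : v' = v
    · subst h
      funext ξ'
      refine (hG.fin v').right_inv _ _ ?_ ?_ ?_ _ _ ξ' (admL_fin L v' hadm)
      · exact inLevL_of_integral _ v' hv (finComp_det_ne_zero v' k) hkint
          (fun i j => by rw [← finComp_inv]; exact hkint' i j)
      · rw [(hG.good v' hv).tlev]
        exact ⟨inTorL_fin_of_inTorus hκtor v', finComp_det_ne_zero v' κ, hκint,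
          fun i j => by rw [← finComp_inv]; exact hκint' i j⟩
      · rw [finComp_det, finComp_det, hdet]
    · have h1 : A0.finComp v' k = 1 := hkloc.2 v' h
      have h2 : A0.finComp v' κ = 1 := hκloc.2 v' h
      rw [h1, h2, mul_one, mul_one]

theorem cpx_inv151 (L : WData K) (hG : L.IsGood) (u : InfinitePlace K) (k κ : A0.G K)
    (hk : A0.IsArchCompact u k) (hκ : InTorus L.toKData.t L.toKData.n κ)
    (hκc : A0.IsArchCompact u κ)
    (hdet : Matrix.GeneralLinearGroup.det k = Matrix.GeneralLinearGroup.det κ)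
    (g m : A0.G K) (ξ : A0.Adl K × A0.Adl K) (hadm : Adm L.toKData.t L.toKData.n g m) :
    L.toKData.F (g * k) (m * κ) ξ = L.toKData.F g m ξ := by
  obtain ⟨hkloc, hkU, -⟩ := hk
  obtain ⟨hκloc, hκU, -⟩ := hκc
  refine F_congr L (fun u' => ?_) (fun v => ?_) ξ
  · rw [infMat_mul, infMat_mul]
    by_cases h : u' = u
    · subst h
      funext ξ'
      have hdet' : (infMat u' k).det = (infMat u' κ).det := by
        rw [infMat_det, infMat_det, hdet]
      exact (hG.cpx u').right_inv _ _ hkU hκU (inTorL_inf_of_inTorus hκ u') hdet' _ _ ξ'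
        (admL_inf L u' hadm)
    · rw [infMat_eq_one_of_triv (hkloc.1 u' h), infMat_eq_one_of_triv (hκloc.1 u' h), mul_one,
        mul_one]
  · have h1 : A0.finComp v k = 1 := hkloc.2 v
    have h2 : A0.finComp v κ = 1 := hκloc.2 v
    rw [finComp_mul, finComp_mul, h1, h2, mul_one, mul_one]

/-! ## The level group -/

theorem level151 (L : WData K) (hG : L.IsGood) (u : A0.G K)
    (hu : A0.InLevelGroup L.toKData.π.level u) :
    ∃ κ : A0.G K, Adm L.toKData.t L.toKData.n u κ ∧ L.toKData.χT κ = 1 ∧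
      ∀ (g m : A0.G K) (ξ : A0.Adl K × A0.Adl K), Adm L.toKData.t L.toKData.n g m →
        L.toKData.F (g * u) (m * κ) ξ = L.toKData.F g m ξ := by
  classical
  obtain ⟨huinf, hufin⟩ := hu
  have hlev : ∀ v : HeightOneSpectrum (𝓞 K), InLevL L.π.level v (A0.finComp v u) := fun v =>
    ⟨finComp_det_ne_zero v u, fun i j =>
      ⟨(hufin v i j).1, by rw [← finComp_inv]; exact (hufin v i j).2⟩⟩
  choose κloc hκloc hκdet using fun v => (hG.fin v).right_ex (A0.finComp v u) (hlev v)
  have hgood : ∀ᶠ v : HeightOneSpectrum (𝓞 K) in cofinite, ¬ v.asIdeal ∣ L.π.level := by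
    rw [Filter.eventually_cofinite]
    simp only [not_not]
    exact Ideal.finite_factors L.π.level_ne_bot
  have hint : ∀ᶠ v in cofinite, ∀ i j, κloc v i j ∈ v.adicCompletionIntegers K :=
    hgood.mono fun v hv => (((hG.good v hv).tlev (κloc v)).mp (hκloc v)).2.2.1
  have hint' : ∀ᶠ v in cofinite, ∀ i j, (κloc v)⁻¹ i j ∈ v.adicCompletionIntegers K :=
    hgood.mono fun v hv => (((hG.good v hv).tlev (κloc v)).mp (hκloc v)).2.2.2
  have hdet0 : ∀ v, (κloc v).det ≠ 0 := fun v => ((hG.fin v).tlev_tor _ (hκloc v)).2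
  set κ : A0.G K := mkG (fun _ => 1) κloc (fun _ => by rw [Matrix.det_one]; exact one_ne_zero)
    hdet0 hint hint' with hκdef
  have hκinf : ∀ w : InfinitePlace K, infMat w κ = 1 := fun w => infMat_mkG _ _ _ _ _ _ w
  have hκfin : ∀ v : HeightOneSpectrum (𝓞 K), A0.finComp v κ = κloc v := fun v =>
    finComp_mkG _ _ _ _ _ _ v
  have hκtor : InTorus L.t L.n κ :=
    inTorus_of_components (fun w => by rw [hκinf]; exact inTorL_one _ _)
      (fun v => by rw [hκfin]; exact ((hG.fin v).tlev_tor _ (hκloc v)).1)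
  refine ⟨κ, ⟨hκtor, ?_⟩,
    chi_eq_one_of_tlev L hG hκtor hκinf (fun v => by rw [hκfin]; exact hκloc v), ?_⟩
  · apply Units.ext
    refine adl_ext (fun w => ?_) (fun v => ?_)
    · rw [← infMat_det, ← infMat_det, hκinf, infMat_eq_one_of_triv (huinf w)]
    · rw [← finComp_det, ← finComp_det, hκfin, hκdet]
  · intro g m ξ hadm
    refine F_congr L (fun w => ?_) (fun v => ?_) ξ
    · rw [infMat_mul, infMat_mul, hκinf, infMat_eq_one_of_triv (huinf w), mul_one, mul_one]
    · rw [finComp_mul, finComp_mul, hκfin]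
      funext ξ'
      exact (hG.fin v).right_inv _ _ (hlev v) (hκloc v) (hκdet v).symm _ _ ξ'
        (admL_fin L v hadm)

/-! ## The positive real scalars -/

theorem arch_scalar151 (L : WData K) (hG : L.IsGood) (w : InfinitePlace K) (z : A0.G K)
    (hz : A0.IsArchPosScalar w z) :
    ∃ κ : A0.G K, Adm L.toKData.t L.toKData.n z κ ∧ L.toKData.χT κ = 1 ∧
      ∀ (g m : A0.G K) (ξ : A0.Adl K × A0.Adl K), Adm L.toKData.t L.toKData.n g m →
        L.toKData.F (g * z) (m * κ) ξ = L.toKData.F g m ξ := by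
  obtain ⟨N, hN, hχN⟩ := chi_eq_one_of_pow hG.torus
  obtain ⟨hzloc, r, hr, hzr⟩ := hz
  have hentry : ∀ i j : Fin 2, InfinitePlace.Completion.extensionEmbedding w (infMat w z i j)
      = (Matrix.diagonal (fun _ : Fin 2 => (r : ℂ))) i j := fun i j =>
    congrFun (congrFun hzr i) j
  set ρ : w.Completion := infMat w z 0 0 with hρdef
  have hρ : InfinitePlace.Completion.extensionEmbedding w ρ = (r : ℂ) := by
    rw [hρdef, hentry 0 0, Matrix.diagonal_apply_eq]
  have hρ0 : ρ ≠ 0 := by
    intro h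
    rw [h, map_zero] at hρ
    exact hr.ne' (by exact_mod_cast hρ.symm)
  have hzw : infMat w z = ρ • (1 : Matrix (Fin 2) (Fin 2) w.Completion) := by
    refine Matrix.ext fun i j => extensionEmbedding_injective w ?_
    rw [hentry i j]
    by_cases h : i = j
    · subst h
      rw [Matrix.diagonal_apply_eq, Matrix.smul_apply, Matrix.one_apply_eq, smul_eq_mul, mul_one,
        hρ]
    · rw [Matrix.diagonal_apply_ne _ h, Matrix.smul_apply, Matrix.one_apply_ne h, smul_zero,
        map_zero]
  obtain ⟨ρ', hρ'0, hρ'N⟩ := exists_root_of_pos w hN hr hρ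
  have hdet' : (ρ' • (1 : Matrix (Fin 2) (Fin 2) w.Completion)).det ≠ 0 := by
    rw [det_smul_one]
    exact pow_ne_zero 2 hρ'0
  have hdetN : ((ρ' • (1 : Matrix (Fin 2) (Fin 2) w.Completion)) ^ N).det ≠ 0 := by
    rw [Matrix.det_pow]
    exact pow_ne_zero N hdet'
  have hκ'tor : InTorus L.t L.n (locInf w (ρ' • (1 : Matrix (Fin 2) (Fin 2) w.Completion)) hdet') := by
    refine inTorus_of_components (fun u => ?_) (fun v => ?_)
    · by_cases h : u = w
      · subst h
        rw [infMat_locInf_same]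
        exact inTorL_smul_one _ _ _
      · rw [infMat_locInf_ne _ _ _ h]
        exact inTorL_one _ _
    · rw [finComp_locInf]
      exact inTorL_one _ _
  have hz_eq : z = locInf w (ρ' • (1 : Matrix (Fin 2) (Fin 2) w.Completion)) hdet' ^ N := by
    rw [locInf_pow _ _ _ _ hdetN]
    have h2 : infMat w z = (ρ' • (1 : Matrix (Fin 2) (Fin 2) w.Completion)) ^ N := by
      rw [hzw, smul_one_pow, hρ'N]
    exact (eq_locInf hzloc).trans (locInf_congr w h2 _ _)
  have hztor : InTorus L.t L.n z := by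
    rw [hz_eq]
    exact inTorus_pow hκ'tor N
  refine ⟨z, ⟨hztor, rfl⟩, ?_, ?_⟩
  · change L.χT z = 1
    rw [hz_eq]
    exact hχN _ hκ'tor
  · intro g m ξ hadm
    refine F_congr L (fun u => ?_) (fun v => ?_) ξ
    · rw [infMat_mul, infMat_mul]
      by_cases h : u = w
      · subst h
        funext ξ'
        rw [hzw]
        refine locAx_scalar (hG.cpx u).ax hρ0 ((hG.cpx u).eta_one ρ hρ0) ?_ ?_ _ _ ξ'
          (admL_inf L u hadm)
        · show Real.sqrt (‖ρ ^ 2‖ ^ u.mult) = ‖ρ‖ ^ u.mult
          rw [norm_pow, ← pow_mul, mul_comm, pow_mul]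
          exact Real.sqrt_sq (pow_nonneg (norm_nonneg _) _)
        · show ‖ρ‖ ^ u.mult ≠ 0
          exact pow_ne_zero _ (norm_ne_zero_iff.mpr hρ0)
      · rw [infMat_eq_one_of_triv (hzloc.1 u h), mul_one, mul_one]
    · have h1 : A0.finComp v z = 1 := hzloc.2 v
      rw [finComp_mul, finComp_mul, h1, mul_one, mul_one]

/-! ## The maximal compact subgroups -/

theorem arch_compact151 (L : WData K) (hG : L.IsGood) (w : InfinitePlace K) (k : A0.G K)
    (hk : A0.IsArchCompact w k) :
    ∃ κ : A0.G K, Adm L.toKData.t L.toKData.n k κ ∧ L.toKData.χT κ = 1 ∧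
      ∀ (g m : A0.G K) (ξ : A0.Adl K × A0.Adl K), Adm L.toKData.t L.toKData.n g m →
        L.toKData.F (g * k) (m * κ) ξ = L.toKData.F g m ξ := by
  obtain ⟨N, hN, hχN⟩ := chi_eq_one_of_pow hG.torus
  obtain ⟨hkloc, hkU, hkR⟩ := hk
  have hkU' : embMat w (infMat w k) * (embMat w (infMat w k)).conjTranspose = 1 := hkU
  have hd0 : (infMat w k).det ≠ 0 := infMat_det_ne_zero w k
  have hdnorm : ‖InfinitePlace.Completion.extensionEmbedding w (infMat w k).det‖ = 1 := by
    rw [← embMat_det]
    exact norm_det_of_unitary hkU'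
  obtain ⟨s, hs⟩ : ∃ s : w.Completion, s ^ (2 * N) = (infMat w k).det := by
    rcases w.isReal_or_isComplex with hw | hw
    · refine ⟨1, ?_⟩
      rw [one_pow]
      apply extensionEmbedding_injective w
      rw [map_one, ← embMat_det]
      exact (hkR hw).symm
    · exact exists_root_of_isComplex hw (by positivity) _
  have hs0 : s ≠ 0 := by
    rintro rfl
    rw [zero_pow (by positivity)] at hs
    exact hd0 hs.symm
  have hσ2 : (s ^ N) ^ 2 = (infMat w k).det := by
    rw [← pow_mul, mul_comm]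
    exact hs
  have hσnorm : ‖InfinitePlace.Completion.extensionEmbedding w (s ^ N)‖ = 1 := by
    have h : ‖InfinitePlace.Completion.extensionEmbedding w (s ^ N)‖ ^ 2 = 1 := by
      rw [← norm_pow, ← map_pow, hσ2, hdnorm]
    have h0 := norm_nonneg (InfinitePlace.Completion.extensionEmbedding w (s ^ N))
    nlinarith [sq_nonneg (‖InfinitePlace.Completion.extensionEmbedding w (s ^ N)‖ - 1),
      sq_nonneg (‖InfinitePlace.Completion.extensionEmbedding w (s ^ N)‖ + 1)]
  have hdet' : (s • (1 : Matrix (Fin 2) (Fin 2) w.Completion)).det ≠ 0 := by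
    rw [det_smul_one]
    exact pow_ne_zero 2 hs0
  have hκ'tor : InTorus L.t L.n (locInf w (s • (1 : Matrix (Fin 2) (Fin 2) w.Completion)) hdet') := by
    refine inTorus_of_components (fun u => ?_) (fun v => ?_)
    · by_cases h : u = w
      · subst h
        rw [infMat_locInf_same]
        exact inTorL_smul_one _ _ _
      · rw [infMat_locInf_ne _ _ _ h]
        exact inTorL_one _ _
    · rw [finComp_locInf]
      exact inTorL_one _ _
  set κ : A0.G K := locInf w (s • (1 : Matrix (Fin 2) (Fin 2) w.Completion)) hdet' ^ N with hκdef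
  have hκw : infMat w κ = (s ^ N) • (1 : Matrix (Fin 2) (Fin 2) w.Completion) := by
    rw [hκdef, infMat_pow, infMat_locInf_same, smul_one_pow]
  have hκu : ∀ u : InfinitePlace K, u ≠ w → infMat u κ = 1 := by
    intro u hu
    rw [hκdef, infMat_pow, infMat_locInf_ne _ _ _ hu, one_pow]
  have hκv : ∀ v : HeightOneSpectrum (𝓞 K), A0.finComp v κ = 1 := by
    intro v
    rw [hκdef, finComp_pow, finComp_locInf, one_pow]
  refine ⟨κ, ⟨inTorus_pow hκ'tor N, ?_⟩, hχN _ hκ'tor, ?_⟩
  · apply Units.ext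
    refine adl_ext (fun u => ?_) (fun v => ?_)
    · rw [← infMat_det, ← infMat_det]
      by_cases h : u = w
      · subst h
        rw [hκw, det_smul_one, hσ2]
      · rw [hκu u h, infMat_eq_one_of_triv (hkloc.1 u h)]
    · have h1 : A0.finComp v k = 1 := hkloc.2 v
      rw [← finComp_det, ← finComp_det, hκv, h1]
  · intro g m ξ hadm
    refine F_congr L (fun u => ?_) (fun v => ?_) ξ
    · rw [infMat_mul, infMat_mul]
      by_cases h : u = w
      · subst h
        funext ξ'
        refine (hG.cpx u).right_inv _ _ hkU' ?_ ?_ ?_ _ _ ξ' (admL_inf L u hadm)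
        · rw [hκw, embMat_smul_one]
          exact unitary_smul_one hσnorm
        · rw [hκw]
          exact inTorL_smul_one _ _ _
        · rw [hκw, det_smul_one, hσ2]
      · rw [hκu u h, infMat_eq_one_of_triv (hkloc.1 u h), mul_one, mul_one]
    · have h1 : A0.finComp v k = 1 := hkloc.2 v
      rw [finComp_mul, finComp_mul, hκv, h1, mul_one, mul_one]

/-! ## The leaf -/

/-- **A2.03.1.6 RIGHT-INV** (`WX467.RightInvC`, VERBATIM), unconditional. -/
theorem rightInvC151 : RightInvC := by
  intro K _ _ L _ hG _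
  exact ⟨⟨level151 L hG, arch_scalar151 L hG, arch_compact151 L hG⟩,
    ⟨good_inv151 L hG, cpx_inv151 L hG⟩⟩

end Fermat.Agent.LT.A2.H151

end
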