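import Fermat.Agent.LT.A2.H151.Mk

/-!
# Row LT, tower A2, leaf A2.03.1.6 `WX467.RightInvC` -- part 4: truncations (helper151, OFF-MAIN)

The truncation `trunc S g` of `g ∈ GL₂(𝔸_K)` to a finite set `S` of finite places (the components
of `g` at the infinite places and at the places of `S`, the identity elsewhere), and its
convergence to `g` along `S` (`tendsto_trunc`).
No holes, nothing assumed.
-/

set_option autoImplicit false

open IsDedekindDomain NumberField AutomorphicForm MeasureTheory Filter
open scoped MatrixGroups Topology RestrictedProduct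

noncomputable section

namespace Fermat.Agent.LT.A2.H151

open Fermat.Agent.LT.H130 Fermat.Agent.LT.H556 Fermat.Agent.LT.A2 Fermat.Agent.LT.A2.WX467

variable {K : Type} [Field K] [NumberField K]

open Classical in
/-- Convergence of the truncations of a finite adele. -/
theorem tendsto_truncFin (x : FiniteAdeleRing (𝓞 K) K)
    (c : ∀ v : HeightOneSpectrum (𝓞 K), v.adicCompletion K)
    (hc : ∀ v, c v ∈ v.adicCompletionIntegers K)
    (y : Finset (HeightOneSpectrum (𝓞 K)) → FiniteAdeleRing (𝓞 K) K)
    (hy : ∀ S v, y S v = if v ∈ S then x v else c v) :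
    Tendsto y atTop (𝓝 x) := by
  have hx : ∀ᶠ v in cofinite, x v ∈ v.adicCompletionIntegers K := x.2
  set T : Set (HeightOneSpectrum (𝓞 K)) := {v | x v ∈ v.adicCompletionIntegers K} with hT
  have hTc : (cofinite : Filter (HeightOneSpectrum (𝓞 K))) ≤ 𝓟 T :=
    Filter.le_principal_iff.mpr hx
  -- the lifts to the restricted product along `𝓟 T`
  let x' : Πʳ v : HeightOneSpectrum (𝓞 K),
      [v.adicCompletion K, (v.adicCompletionIntegers K : Set (v.adicCompletion K))]_[𝓟 T] :=
    ⟨fun v => x v, Filter.eventually_principal.mpr fun v hv => hv⟩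
  let y' : Finset (HeightOneSpectrum (𝓞 K)) → Πʳ v : HeightOneSpectrum (𝓞 K),
      [v.adicCompletion K, (v.adicCompletionIntegers K : Set (v.adicCompletion K))]_[𝓟 T] :=
    fun S => ⟨fun v => y S v, Filter.eventually_principal.mpr fun v hv => by
      show y S v ∈ v.adicCompletionIntegers K
      rw [hy]
      split_ifs
      · exact hv
      · exact hc v⟩
  have h1 : Tendsto y' atTop (𝓝 x') := by
    rw [RestrictedProduct.isEmbedding_coe_of_principal.tendsto_nhds_iff, tendsto_pi_nhds]
    intro v
    apply tendsto_nhds_of_eventually_eq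
    filter_upwards [Filter.eventually_ge_atTop ({v} : Finset (HeightOneSpectrum (𝓞 K)))]
      with S hS
    have hvS : v ∈ S := hS (Finset.mem_singleton_self v)
    show y S v = x v
    rw [hy, if_pos hvS]
  have h2 := (RestrictedProduct.continuous_inclusion hTc).tendsto x' |>.comp h1
  exact h2

open Classical in
/-- Convergence of the truncations of an adele. -/
theorem tendsto_truncAdl (x : A0.Adl K)
    (c : ∀ v : HeightOneSpectrum (𝓞 K), v.adicCompletion K)
    (hc : ∀ v, c v ∈ v.adicCompletionIntegers K)
    (y : Finset (HeightOneSpectrum (𝓞 K)) → A0.Adl K)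
    (hy1 : ∀ S u, (y S).1 u = x.1 u)
    (hy2 : ∀ S v, (y S).2 v = if v ∈ S then x.2 v else c v) :
    Tendsto y atTop (𝓝 x) := by
  have h1 : Tendsto (fun S => (y S).1) atTop (𝓝 x.1) := by
    have : (fun S => (y S).1) = fun _ => x.1 := by
      funext S
      exact funext (hy1 S)
    rw [this]
    exact tendsto_const_nhds
  have h2 : Tendsto (fun S => (y S).2) atTop (𝓝 x.2) :=
    tendsto_truncFin x.2 c hc (fun S => (y S).2) hy2
  exact Tendsto.prodMk_nhds h1 h2

theorem one_integral (v : HeightOneSpectrum (𝓞 K)) (i j : Fin 2) :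
    (1 : Matrix (Fin 2) (Fin 2) (v.adicCompletion K)) i j ∈ v.adicCompletionIntegers K := by
  by_cases h : i = j
  · subst h
    rw [Matrix.one_apply_eq]
    exact one_mem _
  · rw [Matrix.one_apply_ne h]
    exact zero_mem _

open Classical in
/-- The truncation of a matrix over the adeles. -/
def truncM (S : Finset (HeightOneSpectrum (𝓞 K))) (M : Matrix (Fin 2) (Fin 2) (A0.Adl K)) :
    Matrix (Fin 2) (Fin 2) (A0.Adl K) :=
  mkM (fun u => M.map (pInf u)) (fun v => if v ∈ S then M.map (pFin v) else 1)
    (by
      have h : ∀ i j : Fin 2, ∀ᶠ v in cofinite, (M i j).2 v ∈ v.adicCompletionIntegers K :=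
        fun i j => (M i j).2.2
      have h' : ∀ᶠ v in cofinite, ∀ i j : Fin 2, (M i j).2 v ∈ v.adicCompletionIntegers K :=
        Filter.eventually_all.mpr fun i => Filter.eventually_all.mpr (h i)
      refine h'.mono fun v hv i j => ?_
      split_ifs
      · exact hv i j
      · exact one_integral v i j)

open Classical in
/-- Convergence of the truncations of a matrix. -/
theorem tendsto_truncM (M : Matrix (Fin 2) (Fin 2) (A0.Adl K)) :
    Tendsto (fun S => truncM S M) atTop (𝓝 M) := by
  refine tendsto_pi_nhds.mpr fun i => tendsto_pi_nhds.mpr fun j => ?_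
  refine tendsto_truncAdl (M i j)
    (fun v => (1 : Matrix (Fin 2) (Fin 2) (v.adicCompletion K)) i j)
    (fun v => one_integral v i j) (fun S => truncM S M i j) (fun S u => rfl) (fun S v => ?_)
  show (if v ∈ S then M.map (pFin v) else 1) i j = _
  split_ifs <;> rfl

open Classical in
/-- The truncation of `g` to the finite set `S` of finite places. -/
def trunc (S : Finset (HeightOneSpectrum (𝓞 K))) (g : A0.G K) : A0.G K :=
  mkG (fun u => infMat u g) (fun v => if v ∈ S then A0.finComp v g else 1)
    (fun u => infMat_det_ne_zero u g)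
    (fun v => by
      split_ifs
      · exact finComp_det_ne_zero v g
      · rw [Matrix.det_one]; exact one_ne_zero)
    ((eventually_integral g).mono fun v hv i j => by
      split_ifs
      · exact hv i j
      · exact one_integral v i j)
    ((eventually_integral_inv g).mono fun v hv i j => by
      split_ifs
      · exact hv i j
      · rw [inv_one]; exact one_integral v i j)

theorem infMat_trunc (S : Finset (HeightOneSpectrum (𝓞 K))) (g : A0.G K) (u : InfinitePlace K) :
    infMat u (trunc S g) = infMat u g :=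
  infMat_mkG _ _ _ _ _ _ u

open Classical in
theorem finComp_trunc (S : Finset (HeightOneSpectrum (𝓞 K))) (g : A0.G K)
    (v : HeightOneSpectrum (𝓞 K)) :
    A0.finComp v (trunc S g) = if v ∈ S then A0.finComp v g else 1 :=
  finComp_mkG _ _ _ _ _ _ v

theorem finComp_trunc_mem {S : Finset (HeightOneSpectrum (𝓞 K))} (g : A0.G K)
    {v : HeightOneSpectrum (𝓞 K)} (hv : v ∈ S) :
    A0.finComp v (trunc S g) = A0.finComp v g := by
  classical
  rw [finComp_trunc, if_pos hv]

theorem finComp_trunc_notMem {S : Finset (HeightOneSpectrum (𝓞 K))} (g : A0.G K)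
    {v : HeightOneSpectrum (𝓞 K)} (hv : v ∉ S) :
    A0.finComp v (trunc S g) = 1 := by
  classical
  rw [finComp_trunc, if_neg hv]

theorem trunc_val (S : Finset (HeightOneSpectrum (𝓞 K))) (g : A0.G K) :
    ((trunc S g : A0.G K) : Matrix (Fin 2) (Fin 2) (A0.Adl K))
      = truncM S (g : Matrix (Fin 2) (Fin 2) (A0.Adl K)) := rfl

theorem trunc_inv_val (S : Finset (HeightOneSpectrum (𝓞 K))) (g : A0.G K) :
    (((trunc S g)⁻¹ : A0.G K) : Matrix (Fin 2) (Fin 2) (A0.Adl K))
      = truncM S ((g⁻¹ : A0.G K) : Matrix (Fin 2) (Fin 2) (A0.Adl K)) := by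
  classical
  refine adlMatrix_ext (fun u => ?_) (fun v => ?_)
  · rw [← infMat_eq_map, infMat_inv, infMat_trunc]
    unfold truncM
    rw [mkM_mapInf, ← infMat_eq_map, infMat_inv]
  · rw [← finComp_eq_map, finComp_inv, finComp_trunc]
    unfold truncM
    rw [mkM_mapFin, ← finComp_eq_map, finComp_inv]
    split_ifs
    · rfl
    · rw [inv_one]

/-- **Convergence of the truncations** in `GL₂(𝔸_K)`. -/
theorem tendsto_trunc (g : A0.G K) : Tendsto (fun S => trunc S g) atTop (𝓝 g) := by
  rw [Units.isInducing_embedProduct.tendsto_nhds_iff]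
  have h1 : Tendsto (fun S => ((trunc S g : A0.G K) : Matrix (Fin 2) (Fin 2) (A0.Adl K))) atTop
      (𝓝 (g : Matrix (Fin 2) (Fin 2) (A0.Adl K))) := by
    simp only [trunc_val]
    exact tendsto_truncM _
  have h2 : Tendsto (fun S => (((trunc S g)⁻¹ : A0.G K) : Matrix (Fin 2) (Fin 2) (A0.Adl K)))
      atTop (𝓝 ((g⁻¹ : A0.G K) : Matrix (Fin 2) (Fin 2) (A0.Adl K))) := by
    simp only [trunc_inv_val]
    exact tendsto_truncM _
  exact Tendsto.prodMk_nhds h1 ((MulOpposite.continuous_op.tendsto _).comp h2)

end Fermat.Agent.LT.A2.H151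

end
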